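import Fermat.Agent.SiegelConstant.Formula

/-!
# Siegel's form of a totally real field

The diagonal Eisenstein series of all classes together, normalised: a level one form of weight
`k n` whose coefficient of `q ^ m` is `S_m` and whose constant term is `2 ^ (-n) ζ (1 - k)`.
-/

set_option autoImplicit false
set_option linter.unusedSectionVars false
set_option linter.style.haveILetI false

noncomputable section

open NumberField Module Complex
open UpperHalfPlane (qExpansion)
open scoped Real nonZeroDivisors Classical MatrixGroups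

namespace FA.SerreDenominators

open FA.HeckeFE FA.SiegelKlingen FA.SiegelConstant FA.Tau

variable {K : Type*} [Field K] [NumberField K] [IsTotallyReal K]

theorem exists_siegel_form {k : ℕ} (hk : Even k) (hk2 : 2 ≤ k) (hw : 4 ≤ k * finrank ℚ K) :
    ∃ f : ModularForm 𝒮ℒ ((k * finrank ℚ K : ℕ) : ℤ),
      (qExpansion 1 f).coeff 0 = (siegelTotal K k : ℂ) ∧
      ∀ m : ℕ, m ≠ 0 → (qExpansion 1 f).coeff m = (pointSum K (k - 1) m : ℂ) := by
  obtain ⟨D, hD⟩ : ∃ D : ℂ, D = ((((discr K).natAbs : ℕ) : ℚ) : ℂ) ^ (k - 1) := ⟨_, rfl⟩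
  have hD0 : D ≠ 0 := hD ▸ pow_ne_zero _
    (Rat.cast_ne_zero.2 (Nat.cast_ne_zero.2 (Int.natAbs_ne_zero.2 (discr_ne_zero K))))
  obtain ⟨a, ha⟩ : ∃ a : ClassGroup (𝓞 K) → ℂ, ∀ C, a C = D *
      ((FractionalIdeal.absNorm (repIdeal K C : FractionalIdeal (𝓞 K)⁰ K) ^ (k - 1) : ℚ) : ℂ) /
        ((Units.torsionOrder K : ℂ) * factor (repIdeal K C) k) := ⟨_, fun _ => rfl⟩
  obtain ⟨f, hf⟩ : ∃ f : ModularForm 𝒮ℒ ((k * finrank ℚ K : ℕ) : ℤ),
      f = ∑ C : ClassGroup (𝓞 K), a C • eisForm (repIdeal K C) hk hk2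
        (series_ready hk hk2 hw _).1 (series_ready hk hk2 hw _).2 := ⟨_, rfl⟩
  have hq : qExpansion 1 ⇑f = ∑ C : ClassGroup (𝓞 K), a C • qExpansion 1
      ⇑(eisForm (repIdeal K C) hk hk2 (series_ready hk hk2 hw _).1
        (series_ready hk hk2 hw _).2) := by
    refine (show FA.Eis.HasQ 1 ⇑f _ from ?_).qExpansion_eq one_pos
    rw [hf, FunLike.coe_sum]
    exact FA.Eis.HasQ.sum _ fun C _ => by
      rw [FunLike.coe_smul]
      exact (hasQ_form _).smul (a C)
  have hm : ∀ m : ℕ, m ≠ 0 → (qExpansion 1 f).coeff m = (pointSum K (k - 1) m : ℂ) := by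
    intro m hm
    have hw0 : (Units.torsionOrder K : ℂ) ≠ 0 := Nat.cast_ne_zero.2 (NeZero.ne _)
    have hsum := (sum_traceSum (K := K) k m fun _ =>
      finite_level _ hk hk2 (series_ready hk hk2 hw _).1 m).2
    have e : ∀ C : ClassGroup (𝓞 K), a C * (factor (repIdeal K C) k *
        (SiegelKlingen.traceSum (repIdeal K C) k m : ℂ)) = D / Units.torsionOrder K *
          ((FractionalIdeal.absNorm (repIdeal K C : FractionalIdeal (𝓞 K)⁰ K) ^ (k - 1) *
            SiegelKlingen.traceSum (repIdeal K C) k m : ℚ) : ℂ) := fun C => by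
      have := factor_ne_zero (repIdeal K C) k
      rw [ha, Rat.cast_mul]
      field_simp
    simp only [hq, map_sum, PowerSeries.coeff_smul, coeff_eisForm, if_neg hm, smul_eq_mul, e]
    rw [← Finset.mul_sum, ← Rat.cast_sum, hsum]
    push_cast
    rw [hD, Rat.cast_natCast] at hD0 ⊢
    field_simp
  refine ⟨f, ?_, hm⟩
  rw [constant_term (hk.mul_right _) hw f, siegelTotal]
  push_cast
  refine Finset.sum_congr rfl fun l hl => ?_
  rw [hm l (by rw [Finset.mem_Icc] at hl; omega)]

end FA.SerreDenominators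

end
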