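import Fermat.Agent.SerreDenominators.Filtration

/-!
# Forms congruent to a constant modulo a prime power

If a form of even weight `w` with integral expansion is congruent to a constant prime to `p` modulo
`p ^ m`, then `(p - 1) p ^ (m - 1)` divides `w` for odd `p`, and `2 ^ (m - 2)` does for `p = 2`.
-/

set_option autoImplicit false

noncomputable section

open PowerSeries
open scoped ArithmeticFunction.sigma MatrixGroups ModularForm

namespace FA.SerreDenominators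

open FA.SwinnertonDyer FA.Tau FA.Eis UpperHalfPlane

/-- `∑ σ_k (n) qⁿ` over `ℤ`. -/
def sigmaInt (k : ℕ) : PowerSeries ℤ := mk fun n => ((σ k n : ℕ) : ℤ)

theorem map_sigmaInt (p k : ℕ) : (sigmaInt k).map (Int.castRingHom (ZMod p)) = sigmaSer p k := by
  ext n
  simp [sigmaInt, sigmaSer]

theorem sigmaSer_congr {p k : ℕ} [Fact p.Prime] {c : ℕ} (hk : k = (p - 1) * c + 1) :
    sigmaSer p k = sigmaSer p 1 := by
  refine PowerSeries.ext fun n => ?_
  rw [sigmaSer, sigmaSer, coeff_mk, coeff_mk, ArithmeticFunction.sigma_apply,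
    ArithmeticFunction.sigma_one_apply, Nat.cast_sum, Nat.cast_sum]
  refine Finset.sum_congr rfl fun d _ => ?_
  rw [Nat.cast_pow, hk, pow_succ, pow_mul]
  rcases eq_or_ne (d : ZMod p) 0 with h | h
  · rw [h, mul_zero]
  · rw [ZMod.pow_card_sub_one_eq_one h, one_pow, one_mul]

theorem eFourInt_eq : eFourInt = 1 + C (240 : ℤ) * sigmaInt 3 := by
  refine PowerSeries.ext fun n => ?_
  rw [map_add, coeff_C_mul, eFourInt, sigmaInt, coeff_mk, coeff_mk, coeff_one]
  split_ifs with h <;> simp [h]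

theorem eSixInt_eq : eSixInt = 1 + C (-504 : ℤ) * sigmaInt 5 := by
  refine PowerSeries.ext fun n => ?_
  rw [map_add, coeff_C_mul, eSixInt, sigmaInt, coeff_mk, coeff_mk, coeff_one]
  split_ifs with h <;> simp [h]

variable {p : ℕ} [Fact p.Prime]

/-- `E₄ᵃ ≡ 1` modulo `16`. -/
theorem exists_eFour_pow (a : ℕ) : ∃ z, eFourInt ^ a = 1 + C (16 : ℤ) * z := by
  induction a with
  | zero => exact ⟨0, by rw [pow_zero, mul_zero, add_zero]⟩
  | succ a ih =>
    obtain ⟨z, hz⟩ := ih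
    refine ⟨z + (1 + C (16 : ℤ) * z) * (C (15 : ℤ) * sigmaInt 3), ?_⟩
    rw [pow_succ, hz, eFourInt_eq]
    simp only [map_ofNat]
    ring

/-- `E₄ ^ (2 ^ s)` to the first order. -/
theorem exists_eFour_two_pow (s : ℕ) : ∃ z, eFourInt ^ 2 ^ s =
    1 + C ((2 : ℤ) ^ (s + 4)) * (C (15 : ℤ) * sigmaInt 3 + C (2 : ℤ) * z) := by
  induction s with
  | zero =>
    refine ⟨0, ?_⟩
    rw [pow_zero, pow_one, eFourInt_eq, mul_zero, add_zero, ← mul_assoc, ← map_mul]
    norm_num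
  | succ s ih =>
    obtain ⟨z, hz⟩ := ih
    refine ⟨z + C ((2 : ℤ) ^ (s + 2)) * (C (15 : ℤ) * sigmaInt 3 + C (2 : ℤ) * z) ^ 2, ?_⟩
    rw [pow_succ 2 s, pow_mul, hz]
    simp only [map_pow, map_ofNat]
    ring

theorem natCast_series {R : Type*} [CommRing R] (n : ℕ) :
    (n : PowerSeries R) = C (n : R) := (map_natCast C n).symm

/-- **The form behind a congruence**: comparing with a second form isolates `Y`. -/
theorem formModP_of_congr {n : ℕ} (F E : ModularForm 𝒮ℒ (n : ℤ)) {S SE Y R z : PowerSeries ℤ}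
    (hS : qExpansion 1 ⇑F = S.map (Int.castRingHom ℂ))
    (hE : qExpansion 1 ⇑E = SE.map (Int.castRingHom ℂ)) {u b e : ℤ} {j m : ℕ} (hjm : j < m)
    (hS' : S = C u + C ((p : ℤ) ^ m) * R)
    (hE' : SE = C b + C ((p : ℤ) ^ j) * (C e * Y) + C ((p : ℤ) ^ (j + 1)) * z)
    (hu : ¬(p : ℤ) ∣ u) (he : ¬(p : ℤ) ∣ e) :
    IsFormModP p n (Y.map (Int.castRingHom (ZMod p))) := by
  obtain ⟨i, rfl⟩ : ∃ i, m = j + 1 + i := ⟨m - (j + 1), by omega⟩
  have hue : ((-(u * e) : ℤ) : ZMod p) ≠ 0 := fun h => by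
    rw [ZMod.intCast_zmod_eq_zero_iff_dvd, Int.dvd_neg] at h
    exact ((Nat.prime_iff_prime_int.1 Fact.out).dvd_or_dvd h).elim hu he
  obtain ⟨a, ha⟩ : ∃ a : ℤ, (a : ZMod p) = ((-(u * e) : ℤ) : ZMod p)⁻¹ :=
    ⟨(((-(u * e) : ℤ) : ZMod p)⁻¹).val, by rw [Int.cast_natCast, ZMod.natCast_zmod_val]⟩
  obtain ⟨T, hT⟩ : ∃ T : PowerSeries ℤ,
      T = C (b * (p : ℤ) ^ (i + 1)) * R - C (u * e) * Y - C (u * (p : ℤ)) * z := ⟨_, rfl⟩
  have hser : C b * S - C u * SE = C ((p : ℤ) ^ j) * T := by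
    rw [hS', hE', hT, pow_add, pow_succ, pow_succ]
    simp only [map_mul, map_pow]
    ring
  refine ⟨((a : ℂ) / (p : ℂ) ^ j) • ((b : ℂ) • F - (u : ℂ) • E), C a * T, ?_, ?_⟩
  · have h := (((hS ▸ hasQ_form F).smul (b : ℂ)).sub ((hE ▸ hasQ_form E).smul (u : ℂ))).smul
      ((a : ℂ) / (p : ℂ) ^ j)
    rw [FunLike.coe_smul, FunLike.coe_sub, FunLike.coe_smul, FunLike.coe_smul,
      h.qExpansion_eq one_pos]
    have h' := congrArg (PowerSeries.map (Int.castRingHom ℂ)) hser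
    simp only [map_sub, map_mul, map_C, Int.coe_castRingHom, Int.cast_pow, Int.cast_natCast] at h'
    rw [PowerSeries.smul_eq_C_mul, PowerSeries.smul_eq_C_mul, PowerSeries.smul_eq_C_mul, h',
      map_mul, map_C, Int.coe_castRingHom, ← mul_assoc, ← map_mul, div_mul_cancel₀]
    exact pow_ne_zero _ (Nat.cast_ne_zero.2 (Fact.out : p.Prime).ne_zero)
  · rw [hT]
    simp only [map_sub, map_mul (PowerSeries.map _), map_C, Int.coe_castRingHom, Int.cast_mul,
      Int.cast_pow, Int.cast_natCast, ZMod.natCast_self, zero_pow (Nat.succ_ne_zero _), mul_zero,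
      map_zero, zero_mul, sub_zero, zero_sub, mul_neg]
    rw [← mul_assoc, ← neg_mul, ← map_mul, ← map_neg, ← mul_neg, ha,
      show (-((u : ZMod p) * (e : ZMod p))) = ((-(u * e) : ℤ) : ZMod p) by push_cast; rfl,
      inv_mul_cancel₀ hue, map_one, one_mul]

omit [Fact p.Prime] in
theorem constant_series_not_zero {u : ℤ} {R : PowerSeries ℤ} {m : ℕ} (hm : m ≠ 0)
    (hu : ¬(p : ℤ) ∣ u) : C u + C ((p : ℤ) ^ m) * R ≠ 0 := fun h => by
  have h' := congrArg (coeff 0) h
  rw [map_add, coeff_C_mul, coeff_zero_C, map_zero, add_eq_zero_iff_eq_neg] at h'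
  exact hu (h' ▸ Int.dvd_neg.2 (dvd_mul_of_dvd_left (dvd_pow_self _ hm) _))

/-- **Odd primes.** -/
theorem weight_dvd_odd (hp2 : p ≠ 2) {w : ℕ} (hev : Even w) (F : ModularForm 𝒮ℒ (w : ℤ))
    {S R : PowerSeries ℤ} (hS : qExpansion 1 ⇑F = S.map (Int.castRingHom ℂ)) {u : ℤ} {m : ℕ}
    (hm : 1 ≤ m) (hS' : S = C u + C ((p : ℤ) ^ m) * R) (hu : ¬(p : ℤ) ∣ u) :
    (p - 1) * p ^ (m - 1) ∣ w := by
  have hpr : p.Prime := Fact.out
  have hodd : Odd p := hpr.odd_of_ne_two hp2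
  have h3 : 3 ≤ p := by have := hpr.two_le; omega
  have hbase : p - 1 ∣ w := by
    rcases eq_or_ne p 3 with rfl | hp3
    · exact hev.two_dvd
    have h5 : 5 ≤ p := by
      rcases Nat.lt_or_ge p 5 with h | h
      · interval_cases p <;> simp_all (config := { decide := true })
      · exact h
    obtain ⟨G, hG, hG'⟩ := IsFormModP.exists_isob h5 ⟨F, S, hS, rfl⟩
    have h0 : Isob (MvPolynomial.C (u : ZMod p)) 0 := MvPolynomial.isWeightedHomogeneous_C wts _
    have hphi : phi p (MvPolynomial.C (u : ZMod p)) = C (u : ZMod p) := by simp [phi]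
    have hSu : S.map (Int.castRingHom (ZMod p)) = C (u : ZMod p) := by
      rw [hS']
      simp only [map_add, map_mul (PowerSeries.map _), map_C, Int.coe_castRingHom, Int.cast_pow,
        Int.cast_natCast, ZMod.natCast_self, zero_pow (show m ≠ 0 by omega), map_zero, zero_mul,
        add_zero]
    have hne : C (u : ZMod p) ≠ 0 := fun h => by
      have h' := congrArg (constantCoeff) h
      rw [constantCoeff_C, map_zero, ZMod.intCast_zmod_eq_zero_iff_dvd] at h'
      exact hu h'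
    exact Nat.modEq_zero_iff_dvd.1 (weight_congr h5 hG h0 (by rw [hG', hphi, hSu])
      (by rwa [hG', hSu]))
  obtain ⟨q, rfl⟩ := hbase
  refine Nat.mul_dvd_mul_left _ ?_
  by_contra hq
  have hq0 : q ≠ 0 := fun h => hq (h ▸ dvd_zero _)
  obtain ⟨s, t, ht, rfl⟩ := Nat.exists_eq_pow_mul_and_not_dvd hq0 p hpr.ne_one
  have hsm : s + 1 < m := by
    by_contra h
    exact hq (dvd_mul_of_dvd_left (pow_dvd_pow p (by omega)) t)
  have hteq : ¬(p : ℤ) ∣ (t : ℤ) := fun h => ht (Int.natCast_dvd_natCast.1 h)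
  rcases eq_or_ne p 3 with rfl | hp3
  · have hE : qExpansion 1 ⇑(ModularForm.E₄.pow (3 ^ s * t)) =
        (eFourInt ^ (3 ^ s * t)).map (Int.castRingHom ℂ) := by
      rw [ModularForm.coe_pow, map_pow]
      exact (hasQ_eFour.pow one_pos _).qExpansion_eq one_pos
    obtain ⟨z, hz⟩ := exists_pow_expansion hodd (1 : PowerSeries ℤ)
      (C (80 : ℤ) * sigmaInt 3) s t
    have he4 : eFourInt = 1 + ((3 : ℕ) : PowerSeries ℤ) * (C (80 : ℤ) * sigmaInt 3) := by
      rw [eFourInt_eq, natCast_series, ← mul_assoc, ← map_mul]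
      norm_num
    rw [← he4] at hz
    have hw4 : ((3 - 1 : ℕ) * (3 ^ s * t) : ℕ) + ((3 - 1) * (3 ^ s * t)) = 3 ^ s * t * 4 := by
      omega
    have hS2 : qExpansion 1 ⇑(ModularForm.mcast (show ((2 * (3 ^ s * t) : ℕ) : ℤ) +
        ((2 * (3 ^ s * t) : ℕ) : ℤ) = ((3 ^ s * t * 4 : ℕ) : ℤ) by push_cast; ring)
          (F.mul F)) = (S * S).map (Int.castRingHom ℂ) := by
      rw [ModularForm.coe_mcast, ModularForm.coe_mul, map_mul]
      exact ((hS ▸ hasQ_form F).mul one_pos (hS ▸ hasQ_form F)).qExpansion_eq one_pos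
    refine sigmaSer_not_form_small (p := 3) (Or.inr rfl) (n := 3 ^ s * t * 4)
      ⟨3 ^ s * t * 2, by ring⟩ ?_
    rw [← sigmaSer_congr (k := 3) (c := 1) rfl, ← map_sigmaInt]
    refine formModP_of_congr (p := 3) _ (ModularForm.mcast (by push_cast; ring)
      (ModularForm.E₄.pow (3 ^ s * t))) hS2 (by rw [ModularForm.coe_mcast]; exact hE)
      (u := u * u) (b := 1) (e := 80 * (t : ℤ)) (j := s + 1) (m := m)
      (R := C (2 * u) * R + C ((3 : ℤ) ^ m) * R * R) (z := z) (by omega) ?_ ?_ ?_ ?_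
    · rw [hS']
      simp only [map_mul, map_ofNat, Nat.cast_ofNat]
      ring
    · rw [hz]
      simp only [one_pow, natCast_series, map_mul, map_pow, map_one, one_mul, Nat.cast_ofNat,
        map_ofNat]
      ring
    · exact fun h => ((Nat.prime_iff_prime_int.1 hpr).dvd_or_dvd h).elim hu hu
    · exact fun h => ((Nat.prime_iff_prime_int.1 hpr).dvd_or_dvd h).elim (by norm_num) hteq
  have h5 : 5 ≤ p := by
    rcases Nat.lt_or_ge p 5 with h | h
    · interval_cases p <;> simp_all (config := { decide := true })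
    · exact h
  obtain ⟨B, D, hBD, hD, hB⟩ := FA.HasseEis.exists_bernoulli (p := p) h5
  have hk3 : 3 ≤ p - 1 := by omega
  have hkev : Even (p - 1) := hpr.even_sub_one hp2
  obtain ⟨c, hc⟩ : ∃ c : ℤ, c = -2 * ((p - 1 : ℕ) : ℤ) * D := ⟨_, rfl⟩
  obtain ⟨Ei, hEi⟩ : ∃ Ei : PowerSeries ℤ,
      Ei = C B + (p : PowerSeries ℤ) * (C c * sigmaInt (p - 2)) := ⟨_, rfl⟩
  have hbern : (B : ℂ) = (p : ℂ) * (bernoulli (p - 1) : ℂ) * (D : ℂ) := by exact_mod_cast hBD.symm
  have hBne : ¬(p : ℤ) ∣ B := fun h => hD (by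
    rw [← ZMod.intCast_zmod_eq_zero_iff_dvd, hB, neg_eq_zero] at h
    exact h)
  have hb0 : (bernoulli (p - 1) : ℂ) ≠ 0 := fun h => hBne (by
    rw [h, mul_zero, zero_mul, Int.cast_eq_zero] at hbern
    exact hbern ▸ dvd_zero _)
  have hE1 : qExpansion 1 ⇑((B : ℂ) • ModularForm.E hk3) = Ei.map (Int.castRingHom ℂ) := by
    rw [FunLike.coe_smul, ((hasQ_form (ModularForm.E hk3)).smul (B : ℂ)).qExpansion_eq one_pos]
    refine PowerSeries.ext fun i => ?_
    rw [PowerSeries.coeff_smul, EisensteinSeries.E_qExpansion_coeff hk3 hkev, coeff_map, hEi,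
      natCast_series, map_add, coeff_C_mul, coeff_C_mul, sigmaInt, coeff_mk, coeff_C,
      show p - 1 - 1 = p - 2 by omega, eq_intCast, smul_eq_mul, hc]
    rcases eq_or_ne i 0 with rfl | hi
    · simp
    · rw [if_neg hi, if_neg hi, zero_add, hbern]
      push_cast
      field_simp
  obtain ⟨z, hz⟩ := exists_pow_expansion hodd (C B) (C c * sigmaInt (p - 2)) s t
  rw [← hEi] at hz
  have hE : qExpansion 1 ⇑(((B : ℂ) • ModularForm.E hk3).pow (p ^ s * t)) =
      (Ei ^ (p ^ s * t)).map (Int.castRingHom ℂ) := by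
    rw [ModularForm.coe_pow, map_pow]
    exact ((hE1 ▸ hasQ_form _).pow one_pos _).qExpansion_eq one_pos
  refine sigmaSer_not_form h5 (dvd_mul_right (p - 1) (p ^ s * t)) ?_
  rw [← map_sigmaInt]
  refine formModP_of_congr (p := p) F (ModularForm.mcast (by push_cast; ring)
    (((B : ℂ) • ModularForm.E hk3).pow (p ^ s * t))) hS (by rw [ModularForm.coe_mcast]; exact hE)
    (u := u) (b := B ^ (p ^ s * t)) (e := (t : ℤ) * B ^ (p ^ s * t - 1) * c) (j := s + 1) (m := m)
    (R := R) (z := z) (by omega) hS' ?_ hu ?_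
  · rw [hz]
    simp only [natCast_series, map_mul, map_pow]
    ring
  · intro h
    rcases (Nat.prime_iff_prime_int.1 hpr).dvd_or_dvd h with h | h
    · rcases (Nat.prime_iff_prime_int.1 hpr).dvd_or_dvd h with h | h
      · exact hteq h
      · exact hBne ((Nat.prime_iff_prime_int.1 hpr).dvd_of_dvd_pow h)
    · rw [← ZMod.intCast_zmod_eq_zero_iff_dvd, hc] at h
      push_cast [Nat.cast_sub hpr.one_le, ZMod.natCast_self] at h
      simp [hD, (ne_two_three h5).1] at h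

/-- **The prime two.** -/
theorem weight_dvd_two {w : ℕ} (hev : Even w) (F : ModularForm 𝒮ℒ (w : ℤ))
    {S R : PowerSeries ℤ} (hS : qExpansion 1 ⇑F = S.map (Int.castRingHom ℂ)) {u : ℤ} {m : ℕ}
    (hS' : S = C u + C ((2 : ℤ) ^ m) * R) (hu : ¬(2 : ℤ) ∣ u) : 2 ^ (m - 2) ∣ w := by
  by_contra hw
  have hw0 : w ≠ 0 := fun h => hw (h ▸ dvd_zero _)
  obtain ⟨s, t, ht, rfl⟩ := Nat.exists_eq_pow_mul_and_not_dvd hw0 2 (by norm_num)
  have hsm : s + 2 < m := by
    by_contra h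
    exact hw (dvd_mul_of_dvd_left (pow_dvd_pow 2 (by omega)) t)
  have hteq : ¬((2 : ℕ) : ℤ) ∣ (t : ℤ) := fun h => ht (Int.natCast_dvd_natCast.1 h)
  have hu' : ¬((2 : ℕ) : ℤ) ∣ u := hu
  have hS'' : S = C u + C (((2 : ℕ) : ℤ) ^ m) * R := hS'
  have : Fact (Nat.Prime 2) := ⟨Nat.prime_two⟩
  refine sigmaSer_not_form_small (p := 2) (Or.inl rfl) hev ?_
  rcases s with _ | _ | s
  · rw [pow_zero, one_mul] at hev
    exact absurd hev.two_dvd ht
  · obtain ⟨a, rfl⟩ : ∃ a, t = 2 * a + 1 := ⟨t / 2, by omega⟩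
    rcases a with _ | a
    · exfalso
      obtain rfl : F = 0 := rank_zero_iff_forall_zero.mp ModularForm.levelOne_weight_two_rank_zero F
      refine constant_series_not_zero (R := R) (m := m) (by omega) hu' ?_
      rw [← hS'']
      refine PowerSeries.map_injective (Int.castRingHom ℂ) Int.cast_injective ?_
      rw [map_zero, ← hS, FunLike.coe_zero, qExpansion_zero]
    · obtain ⟨z, hz⟩ := exists_eFour_pow (a)
      rw [← sigmaSer_congr (k := 5) (c := 4) rfl, ← map_sigmaInt]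
      refine formModP_of_congr (p := 2) F (ModularForm.mcast (by push_cast; ring)
        ((ModularForm.E₄.pow a).mul ModularForm.E₆)) hS
        (SE := eFourInt ^ a * eSixInt) ?_ (u := u) (b := 1) (e := -63) (j := 3) (m := m)
        (R := R) (z := z * eSixInt) (by omega) hS'' ?_ hu' (by decide)
      · rw [ModularForm.coe_mcast, ModularForm.coe_mul, ModularForm.coe_pow, map_mul, map_pow]
        exact ((hasQ_eFour.pow one_pos a).mul one_pos hasQ_eSix).qExpansion_eq one_pos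
      · rw [hz, add_mul, one_mul, mul_assoc]
        nth_rw 1 [eSixInt_eq]
        rw [← mul_assoc (C (((2 : ℕ) : ℤ) ^ 3)), ← map_mul, map_one]
        norm_num
  · obtain ⟨z, hz⟩ : ∃ z, eFourInt ^ (2 ^ s * t) =
        1 + C ((2 : ℤ) ^ (s + 4)) * (C (15 * (t : ℤ)) * sigmaInt 3) +
          C ((2 : ℤ) ^ (s + 5)) * z := by
      obtain ⟨z, hz⟩ := exists_eFour_two_pow s
      obtain ⟨x, hx⟩ : ∃ x, x = C (15 : ℤ) * sigmaInt 3 + C (2 : ℤ) * z := ⟨_, rfl⟩
      obtain ⟨W, hW⟩ := sq_dvd_add_pow_sub_sub (C ((2 : ℤ) ^ (s + 4)) * x)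
        (1 : PowerSeries ℤ) t
      refine ⟨C (t : ℤ) * z + C ((2 : ℤ) ^ (s + 3)) * x ^ 2 * W, ?_⟩
      rw [pow_mul, hz, ← hx]
      rw [one_pow, one_pow, one_mul, natCast_series] at hW
      simp only [map_pow, map_mul, map_ofNat] at hW hx ⊢
      linear_combination hW + (2 : PowerSeries ℤ) ^ (s + 4) * C (t : ℤ) * hx
    rw [← sigmaSer_congr (k := 3) (c := 2) rfl, ← map_sigmaInt]
    refine formModP_of_congr (p := 2) F (ModularForm.mcast (by push_cast; ring)
      (ModularForm.E₄.pow (2 ^ s * t))) hS (SE := eFourInt ^ (2 ^ s * t)) ?_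
      (u := u) (b := 1) (e := 15 * (t : ℤ)) (j := s + 4) (m := m)
      (R := R) (z := z) (by omega) hS'' ?_ hu' ?_
    · rw [ModularForm.coe_mcast, ModularForm.coe_pow, map_pow]
      exact (hasQ_eFour.pow one_pos _).qExpansion_eq one_pos
    · rw [hz, map_one]
      norm_num
    · exact fun h => ((Nat.prime_iff_prime_int.1 Nat.prime_two).dvd_or_dvd h).elim
        (by decide) hteq

end FA.SerreDenominators

end
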