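import Fermat.Agent.SerreDenominators.Congruence
import Fermat.Agent.SiegelKlingen.RationalConstant
import Mathlib.Data.Nat.Factorization.Basic

/-!
# Denominators of constant terms

A level one form of even weight `w ≥ 4` with integral higher coefficients has a constant term whose
denominator divides that of `B_w / (2 w)`.
-/

set_option autoImplicit false

noncomputable section

open scoped ArithmeticFunction.sigma MatrixGroups

namespace FA.SerreDenominators

open FA.Tau UpperHalfPlane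

/-- The primes entering the denominator, besides `2`. -/
def staudtSet (w : ℕ) : Finset ℕ :=
  (Finset.range (w + 2)).filter fun q => q.Prime ∧ q ≠ 2 ∧ (q - 1) ∣ w

/-- `2 ^ (v₂ (w) + 2) ∏ p ^ (v_p (w) + 1)`, `p` odd with `p - 1 ∣ w`. -/
def staudtDen (w : ℕ) : ℕ :=
  2 ^ (w.factorization 2 + 2) * ∏ q ∈ staudtSet w, q ^ (w.factorization q + 1)

theorem staudtDen_ne_zero (w : ℕ) : staudtDen w ≠ 0 :=
  mul_ne_zero (pow_ne_zero _ two_ne_zero) (Finset.prod_ne_zero_iff.2 fun _ hq =>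
    pow_ne_zero _ (Finset.mem_filter.1 hq).2.1.ne_zero)

/-- **The denominator of the constant term.** -/
theorem den_dvd {w : ℕ} (hev : Even w) (hw : 4 ≤ w) (f : ModularForm 𝒮ℒ (w : ℤ))
    (h : ∀ m : ℕ, m ≠ 0 → ∃ z : ℤ, (qExpansion 1 f).coeff m = z) :
    ∃ r : ℚ, (qExpansion 1 f).coeff 0 = r ∧ r.den ∣ staudtDen w := by
  obtain ⟨r, hr⟩ := FA.SiegelKlingen.rational_constant (by exact_mod_cast (by omega : w ≠ 0)) f
    fun m hm => by
      obtain ⟨z, hz⟩ := h m hm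
      exact ⟨z, by rw [hz, Rat.cast_intCast]⟩
  refine ⟨r, hr, ?_⟩
  obtain ⟨c, hc⟩ : ∃ c : ℕ → ℤ, ∀ m, m ≠ 0 → (qExpansion 1 f).coeff m = (c m : ℂ) :=
    ⟨fun m => if hm : m ≠ 0 then (h m hm).choose else 0, fun m hm => by
      simp only [dif_pos hm]; exact (h m hm).choose_spec⟩
  obtain ⟨S, hS⟩ : ∃ S : PowerSeries ℤ, S = PowerSeries.mk fun m =>
      if m = 0 then r.num else (r.den : ℤ) * c m := ⟨_, rfl⟩
  have hSF : qExpansion 1 ⇑((r.den : ℂ) • f) = S.map (Int.castRingHom ℂ) := by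
    rw [FunLike.coe_smul, ((hasQ_form f).smul (r.den : ℂ)).qExpansion_eq one_pos]
    refine PowerSeries.ext fun m => ?_
    rw [PowerSeries.coeff_smul, PowerSeries.coeff_map, hS, PowerSeries.coeff_mk, smul_eq_mul,
      eq_intCast]
    split_ifs with hm
    · rw [hm, hr, ← Rat.cast_natCast, ← Rat.cast_mul, Rat.den_mul_eq_num, Rat.cast_intCast]
    · rw [hc m hm, Int.cast_mul, Int.cast_natCast]
  rw [Nat.dvd_iff_prime_pow_dvd_dvd]
  intro q k hq hqk
  rcases Nat.eq_zero_or_pos k with rfl | hk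
  · exact (pow_zero q).symm ▸ one_dvd _
  have : Fact q.Prime := ⟨hq⟩
  obtain ⟨e, he⟩ := hqk
  have hu : ¬(q : ℤ) ∣ r.num := fun hd => by
    have h1 : q ∣ r.num.natAbs := Int.natCast_dvd.1 hd
    exact hq.ne_one (Nat.eq_one_of_dvd_coprimes r.reduced h1
      (he ▸ dvd_mul_of_dvd_left (dvd_pow_self q hk.ne') e))
  obtain ⟨R, hR⟩ : ∃ R : PowerSeries ℤ, R = PowerSeries.mk fun m =>
      if m = 0 then 0 else (e : ℤ) * c m := ⟨_, rfl⟩
  have hS' : S = PowerSeries.C r.num + PowerSeries.C ((q : ℤ) ^ k) * R := by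
    refine PowerSeries.ext fun m => ?_
    rw [map_add, PowerSeries.coeff_C_mul, hS, hR, PowerSeries.coeff_mk, PowerSeries.coeff_mk,
      PowerSeries.coeff_C, he]
    split_ifs
    · rw [mul_zero, add_zero]
    · push_cast
      ring
  have hw0 : w ≠ 0 := by omega
  rcases eq_or_ne q 2 with rfl | hq2
  · have hd := weight_dvd_two hev _ hSF (R := R) (u := r.num) (m := k) hS' hu
    have := (hq.pow_dvd_iff_le_factorization hw0).1 hd
    exact dvd_mul_of_dvd_left (pow_dvd_pow 2 (by omega)) _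
  · have hd := weight_dvd_odd hq2 hev _ hSF (R := R) (u := r.num) (m := k) hk hS' hu
    have := (hq.pow_dvd_iff_le_factorization hw0).1 (dvd_of_mul_left_dvd hd)
    refine dvd_mul_of_dvd_right ((pow_dvd_pow q (by omega : k ≤ w.factorization q + 1)).trans
      (Finset.dvd_prod_of_mem (fun q => q ^ (w.factorization q + 1)) ?_)) _
    have h1 := dvd_of_mul_right_dvd hd
    rw [staudtSet, Finset.mem_filter, Finset.mem_range]
    exact ⟨by have := Nat.le_of_dvd (by omega) h1; omega, hq, hq2, h1⟩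

/-- The integrality form of it. -/
theorem den_mul_mem {w : ℕ} (hev : Even w) (hw : 4 ≤ w) (f : ModularForm 𝒮ℒ (w : ℤ))
    (h : ∀ m : ℕ, m ≠ 0 → ∃ z : ℤ, (qExpansion 1 f).coeff m = z) :
    ∃ z : ℤ, (staudtDen w : ℂ) * (qExpansion 1 f).coeff 0 = z := by
  obtain ⟨r, hr, d, hd⟩ := den_dvd hev hw f h
  refine ⟨d * r.num, ?_⟩
  rw [hr, hd, Int.cast_mul, Int.cast_natCast, ← Rat.cast_intCast r.num,
    ← Rat.den_mul_eq_num r]
  push_cast
  ring

theorem pow_succ_dvd_den {w q e : ℕ} (hev : Even w) (hq : q.Prime) (hqw : q - 1 ∣ w)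
    (he : q ^ e ∣ 2 * w) (hw : w ≠ 0) : q ^ (e + 1) ∣ (bernoulli w / (2 * w)).den := by
  have : Fact q.Prime := ⟨hq⟩
  obtain ⟨k, rfl⟩ := hev.exists_two_nsmul
  rw [smul_eq_mul] at hqw he hw ⊢
  obtain ⟨T, hT⟩ := Bernoulli.vonStaudt_clausen k
  set s := (Finset.range (2 * k + 2)).filter fun x => x.Prime ∧ (x - 1) ∣ 2 * k with hs
  have hp : q ∈ s := by
    rw [hs, Finset.mem_filter, Finset.mem_range]
    exact ⟨by have := Nat.le_of_dvd (by omega) hqw; omega, hq, hqw⟩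
  obtain ⟨D, hD⟩ : ∃ D, D = ∏ x ∈ s.erase q, x := ⟨_, rfl⟩
  have hqD : ¬(q : ℤ) ∣ (D : ℤ) := by
    rw [Int.natCast_dvd_natCast, hD, hq.prime.dvd_finsetProd_iff]
    rintro ⟨x, hx, hqx⟩
    obtain ⟨hne, hx⟩ := Finset.mem_erase.1 hx
    exact hne ((Nat.prime_dvd_prime_iff_eq hq (Finset.mem_filter.1 hx).2.1).1 hqx).symm
  obtain ⟨Z, hZ⟩ : ∃ Z : ℤ,
      Z = (q : ℤ) * (T * D - ∑ x ∈ s.erase q, ((D / x : ℕ) : ℤ)) - D := ⟨_, rfl⟩
  have hB : (q : ℚ) * bernoulli (2 * k) * D = Z := by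
    rw [show bernoulli (2 * k) = (T : ℚ) - ∑ x ∈ s, (1 : ℚ) / x by rw [hT]; simp [hs], hZ,
      ← Finset.add_sum_erase s _ hp]
    have hsum : ∀ x ∈ s.erase q, (((D / x : ℕ) : ℤ) : ℚ) = (D : ℚ) * (1 / x) := fun x hx => by
      rw [Int.cast_natCast, Nat.cast_div (hD ▸ Finset.dvd_prod_of_mem _ hx), mul_one_div]
      exact Nat.cast_ne_zero.2 (Finset.mem_filter.1 (Finset.mem_erase.1 hx).2).2.1.ne_zero
    rw [Int.cast_sub, Int.cast_mul, Int.cast_sub, Int.cast_sum, Finset.sum_congr rfl hsum,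
      ← Finset.mul_sum]
    push_cast
    have : (q : ℚ) ≠ 0 := Nat.cast_ne_zero.2 hq.ne_zero
    field_simp
    ring
  have hqZ : ¬(q : ℤ) ∣ Z := fun hd => hqD (by
    rw [hZ] at hd
    exact (dvd_sub_right (dvd_mul_right _ _)).1 hd)
  obtain ⟨r, hr⟩ : ∃ r : ℚ, r = bernoulli (2 * k) / (2 * ((2 * k : ℕ) : ℚ)) := ⟨_, rfl⟩
  rw [← hr]
  have key : r.num * (2 * (2 * k : ℕ)) * q * D = (r.den : ℤ) * Z := by
    refine Int.cast_injective (α := ℚ) ?_
    have h2 : (2 : ℚ) * ((2 * k : ℕ) : ℚ) ≠ 0 := mul_ne_zero two_ne_zero (Nat.cast_ne_zero.2 hw)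
    have hb : bernoulli (2 * k) = r * (2 * ((2 * k : ℕ) : ℚ)) := by
      rw [hr, div_mul_cancel₀ _ h2]
    rw [hb, ← Rat.num_div_den r] at hB
    have hden : (r.den : ℚ) ≠ 0 := Nat.cast_ne_zero.2 r.den_ne_zero
    push_cast at hB ⊢
    field_simp at hB
    linear_combination hB
  refine Int.natCast_dvd_natCast.1 ?_
  have h1 : ((q ^ (e + 1) : ℕ) : ℤ) ∣ (r.den : ℤ) * Z := by
    rw [← key]
    push_cast
    rw [pow_succ]
    exact dvd_mul_of_dvd_left (mul_dvd_mul (dvd_mul_of_dvd_right (by exact_mod_cast he) _)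
      dvd_rfl) _
  refine IsCoprime.dvd_of_dvd_mul_right ?_ h1
  push_cast
  exact ((Prime.coprime_iff_not_dvd (Nat.prime_iff_prime_int.1 hq)).2 hqZ).pow_left

/-- **The bound is the denominator of `B_w / (2 w)`**, so it is attained by the Eisenstein
series. -/
theorem staudtDen_eq {w : ℕ} (hev : Even w) (hw : 4 ≤ w) :
    staudtDen w = (bernoulli w / (2 * w)).den := by
  refine Nat.dvd_antisymm ?_ ?_
  · have hw0 : w ≠ 0 := by omega
    refine Nat.Coprime.mul_dvd_of_dvd_of_dvd (Nat.Coprime.pow_left _ (Nat.Coprime.prod_right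
      fun q hq => Nat.Coprime.pow_right _ ((Nat.coprime_primes Nat.prime_two
        (Finset.mem_filter.1 hq).2.1).2 (Finset.mem_filter.1 hq).2.2.1.symm))) ?_ ?_
    · refine pow_succ_dvd_den hev Nat.prime_two (one_dvd _) ?_ hw0
      rw [pow_succ']
      exact Nat.mul_dvd_mul_left 2 (Nat.ordProj_dvd w 2)
    · refine (Finset.prod_dvd_of_isRelPrime (fun x hx y hy hxy => ?_) fun q hq => ?_)
      · exact Nat.coprime_iff_isRelPrime.1 (((Nat.coprime_primes (Finset.mem_filter.1 hx).2.1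
          (Finset.mem_filter.1 hy).2.1).2 hxy).pow _ _)
      · obtain ⟨-, hqp, -, hqw⟩ := Finset.mem_filter.1 hq
        exact pow_succ_dvd_den hev hqp hqw ((Nat.ordProj_dvd w q).trans (dvd_mul_left w 2)) hw0
  · obtain ⟨f, hf⟩ : ∃ f : ModularForm 𝒮ℒ (w : ℤ),
        f = ((-(bernoulli w / (2 * w)) : ℚ) : ℂ) • ModularForm.E (show 3 ≤ w by omega) :=
      ⟨_, rfl⟩
    have hB : bernoulli w ≠ 0 := fun h => by
      have := pow_succ_dvd_den hev Nat.prime_two (one_dvd _) (e := 0) (one_dvd _) (by omega)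
      rw [h, zero_div, Rat.den_zero] at this
      exact absurd (Nat.le_of_dvd one_pos this) (by norm_num)
    have hq : ∀ m, (qExpansion 1 f).coeff m = if m = 0 then ((-(bernoulli w / (2 * w)) : ℚ) : ℂ)
        else ((σ (w - 1) m : ℕ) : ℂ) := fun m => by
      rw [hf, FunLike.coe_smul, ((hasQ_form _).smul _).qExpansion_eq one_pos,
        PowerSeries.coeff_smul, EisensteinSeries.E_qExpansion_coeff _ hev, smul_eq_mul]
      split_ifs
      · rw [mul_one]
      · have h1 : (bernoulli w : ℂ) ≠ 0 := Rat.cast_ne_zero.2 hB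
        have h2 : (w : ℂ) ≠ 0 := Nat.cast_ne_zero.2 (by omega)
        push_cast
        field_simp
    obtain ⟨r, hr, hd⟩ := den_dvd hev hw f fun m hm => ⟨σ (w - 1) m, by
      rw [hq, if_neg hm, Int.cast_natCast]⟩
    rw [hq, if_pos rfl, Rat.cast_inj] at hr
    rw [← hr, Rat.den_neg_eq_den] at hd
    exact hd

theorem staudtDen_values : staudtDen 4 = 240 ∧ staudtDen 6 = 504 ∧ staudtDen 8 = 480 ∧
    staudtDen 10 = 264 ∧ staudtDen 12 = 65520 := by
  refine ⟨?_, ?_, ?_, ?_, ?_⟩ <;>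
    rw [staudtDen_eq (by decide) (by norm_num)] <;> decide +kernel

end FA.SerreDenominators

end
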