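import Fermat.Agent.SerreDenominators.Sigma
import Fermat.Agent.Tau.FiltrationModP
import Fermat.Agent.Tau.DeltaBasis

/-!
# Serre's series is no form

For `p ≥ 5` the series `φ = ∑ σ_{p-2} (n) qⁿ` is congruent to no form of weight divisible by
`p - 1`: otherwise `φ - φᵖ`, which has filtration `p² - 1`, would have filtration `p` times that
of `φ`. For `p = 2, 3` forms are polynomials in `Δ` modulo `p`, and `φ - φᵖ = Δ`.
-/

set_option autoImplicit false

noncomputable section

open scoped ArithmeticFunction.sigma MatrixGroups ModularForm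

namespace FA.SerreDenominators

open FA.SwinnertonDyer FA.Tau FA.HasseEis FA.Hatada MvPolynomial

variable {p : ℕ} [Fact p.Prime]

theorem formModP_pad (h5 : 5 ≤ p) {n : ℕ} {f : PowerSeries (ZMod p)} (h : IsFormModP p n f)
    {M : ℕ} (hle : n ≤ M) (hmod : n ≡ M [MOD p - 1]) : IsFormModP p M f := by
  obtain ⟨F, hF, rfl⟩ := h.exists_isob h5
  obtain ⟨j, hj⟩ := (Nat.modEq_iff_dvd' hle).1 hmod
  have hA := ((isob_hassePoly (p := p) h5).pow j).mul hF
  rw [smul_eq_mul, show j * (p - 1) + n = M by rw [mul_comm j, ← hj]; omega] at hA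
  simpa [phi_hassePoly h5] using isFormModP_phi hA

theorem formModP_sub (h5 : 5 ≤ p) {n : ℕ} {f g : PowerSeries (ZMod p)} (hf : IsFormModP p n f)
    (hg : IsFormModP p n g) : IsFormModP p n (f - g) := by
  obtain ⟨F, hF, rfl⟩ := hf.exists_isob h5
  obtain ⟨G, hG, rfl⟩ := hg.exists_isob h5
  rw [← map_sub]
  exact isFormModP_phi (hF.sub hG)

theorem formModP_smul (h5 : 5 ≤ p) {n : ℕ} {f : PowerSeries (ZMod p)} (hf : IsFormModP p n f)
    (c : ZMod p) : IsFormModP p n (PowerSeries.C c * f) := by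
  obtain ⟨F, hF, rfl⟩ := hf.exists_isob h5
  have h : phi p (C c) = PowerSeries.C c := by simp [phi]
  rw [← h, ← map_mul]
  exact isFormModP_phi (hF.C_mul c)

theorem coeff_thetaP (f : PowerSeries (ZMod p)) (n : ℕ) :
    PowerSeries.coeff n (thetaP p f) = (n : ZMod p) * PowerSeries.coeff n f := by
  cases n with
  | zero => simp [thetaP]
  | succ n =>
    rw [thetaP, PowerSeries.coeff_succ_X_mul, PowerSeries.coeff_derivative]
    push_cast
    ring

theorem coeff_e2 {n : ℕ} (hn : n ≠ 0) :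
    PowerSeries.coeff n (e2 p) = -24 * ((σ 1 n : ℕ) : ZMod p) := by
  simp [e2, eTwoInt, hn]

theorem neg24_ne (h5 : 5 ≤ p) : (-24 : ZMod p) ≠ 0 := by
  rw [neg_ne_zero, show (24 : ZMod p) = 12 * 2 by norm_num]
  exact mul_ne_zero (twelve_ne h5) (ne_two_three h5).1

/-- `θʲ E₂` has filtration `(j + 1) (p + 1)` for `j ≤ p - 2`. -/
theorem isLeast_theta_iterate (h5 : 5 ≤ p) : ∀ j, j ≤ p - 2 →
    IsLeast {n | IsFormModP p n ((thetaP p)^[j] (e2 p))} ((j + 1) * (p + 1)) ∧
      (thetaP p)^[j] (e2 p) ≠ 0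
  | 0, _ => by
    have hmem : IsFormModP p (p + 1) (e2 p) := by
      rw [← phi_dOp_hassePoly h5]
      have h := isFormModP_phi (dOp_isob (isob_hassePoly (p := p) h5))
      rwa [show p - 1 + 2 = p + 1 by omega] at h
    have hne : e2 p ≠ 0 := fun h => by
      have h' := congrArg PowerSeries.constantCoeff h
      rw [map_zero, ← PowerSeries.coeff_zero_eq_constantCoeff_apply] at h'
      simp [e2, eTwoInt] at h'
    rw [Function.iterate_zero, id, zero_add, one_mul]
    refine ⟨⟨hmem, fun n hn => ?_⟩, hne⟩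
    by_contra hlt
    obtain ⟨F, hF, hF'⟩ := IsFormModP.exists_isob h5 hn
    obtain ⟨G, hG, hG'⟩ := hmem.exists_isob h5
    obtain ⟨j, hj⟩ := (Nat.modEq_iff_dvd' (by omega : n ≤ p + 1)).1
      (weight_congr h5 hF hG (hF'.trans hG'.symm) (hF' ▸ hne))
    rcases j with _ | _ | j
    · omega
    · obtain rfl : n = 2 := by omega
      obtain ⟨H, T, hH, hT⟩ := hn
      refine hne ?_
      have h0 : H = 0 := rank_zero_iff_forall_zero.mp ModularForm.levelOne_weight_two_rank_zero H
      rw [h0, FunLike.coe_zero, UpperHalfPlane.qExpansion_zero] at hH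
      have hT0 : T = 0 := PowerSeries.map_injective (Int.castRingHom ℂ) Int.cast_injective
        (by rw [← hH, map_zero])
      rw [← hT, hT0, map_zero]
    · have : (p - 1) * 2 ≤ (p - 1) * (j + 1 + 1) := Nat.mul_le_mul_left _ (by omega)
      omega
  | j + 1, hj => by
    obtain ⟨h, hne⟩ := isLeast_theta_iterate h5 j (by omega)
    have hndvd : ¬p ∣ (j + 1) * (p + 1) := fun hd => by
      rcases (Fact.out : p.Prime).dvd_mul.1 hd with h' | h'
      · have := Nat.le_of_dvd (by omega) h'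
        omega
      · rw [Nat.dvd_add_self_left] at h'
        exact (Fact.out : p.Prime).ne_one (Nat.dvd_one.1 h')
    rw [Function.iterate_succ_apply',
      show (j + 1 + 1) * (p + 1) = (j + 1) * (p + 1) + p + 1 by ring]
    refine ⟨(filtration_theta h5 hne h).2 hndvd, fun h0 => ?_⟩
    have h' := congrArg (PowerSeries.coeff 1) h0
    rw [map_zero, coeff_thetaP, Nat.cast_one, one_mul] at h'
    have hiter : ∀ i, PowerSeries.coeff 1 ((thetaP p)^[i] (e2 p)) = -24 := fun i => by
      induction i with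
      | zero => rw [Function.iterate_zero, id, coeff_e2 one_ne_zero]; simp
      | succ i ih => rw [Function.iterate_succ_apply', coeff_thetaP, ih, Nat.cast_one, one_mul]
    exact neg24_ne h5 ((hiter j).symm.trans h')

theorem iterate_theta_e2 (h5 : 5 ≤ p) : (thetaP p)^[p - 2] (e2 p) =
    PowerSeries.C (-24 : ZMod p) * (sigmaSer p (p - 2) - sigmaSer p (p - 2) ^ p) := by
  have hiter : ∀ i n, PowerSeries.coeff n ((thetaP p)^[i] (e2 p)) =
      (n : ZMod p) ^ i * PowerSeries.coeff n (e2 p) := fun i => by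
    induction i with
    | zero => simp
    | succ i ih =>
      intro n
      rw [Function.iterate_succ_apply', coeff_thetaP, ih, pow_succ]
      ring
  refine PowerSeries.ext fun n => ?_
  rw [hiter, PowerSeries.coeff_C_mul,
    sigmaSer_sub_pow (by omega) (by rw [show p - 2 + 1 = p - 1 by omega]), PowerSeries.coeff_mk]
  split_ifs with h
  · rw [(ZMod.natCast_eq_zero_iff n p).2 h, zero_pow (by omega), zero_mul, mul_zero]
  · rw [coeff_e2 (fun h0 : n = 0 => h (by rw [h0]; exact dvd_zero p))]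
    ring

/-- **No form of weight divisible by `p - 1` is congruent to `φ`.** -/
theorem sigmaSer_not_form (h5 : 5 ≤ p) {n : ℕ} (hn : p - 1 ∣ n) :
    ¬IsFormModP p n (sigmaSer p (p - 2)) := by
  intro hform
  obtain ⟨f, hf⟩ : ∃ f, f = sigmaSer p (p - 2) := ⟨_, rfl⟩
  rw [← hf] at hform
  have hne : f ≠ 0 := fun h => by
    have h' := congrArg (PowerSeries.coeff 1) h
    rw [hf, sigmaSer, PowerSeries.coeff_mk, map_zero] at h'
    simp at h'
  obtain ⟨h, hh⟩ : ∃ h, IsLeast {n | IsFormModP p n f} h :=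
    ⟨sInf {n | IsFormModP p n f}, Nat.sInf_mem ⟨n, hform⟩, fun _ hm => Nat.sInf_le hm⟩
  obtain ⟨F, hF, hF'⟩ := IsFormModP.exists_isob h5 hh.1
  obtain ⟨G, hG, hG'⟩ := hform.exists_isob h5
  have hh0 : h ≡ 0 [MOD p - 1] := (weight_congr h5 hF hG (hF'.trans hG'.symm) (hF' ▸ hne)).trans
    (Nat.modEq_zero_iff_dvd.2 hn)
  have hph : p * h ≡ 0 [MOD p - 1] := by simpa using hh0.mul_left p
  have hN : (p - 2 + 1) * (p + 1) ≡ 0 [MOD p - 1] := Nat.modEq_zero_iff_dvd.2
    ⟨p + 1, by rw [show p - 2 + 1 = p - 1 by omega]⟩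
  have hpow := filtration_pow h5 hne hh p
  obtain ⟨hθ, -⟩ := isLeast_theta_iterate (p := p) h5 (p - 2) le_rfl
  rw [iterate_theta_e2 h5, ← hf] at hθ
  have hle : h ≤ p * h := Nat.le_mul_of_pos_left h (Fact.out : p.Prime).pos
  have h1 : (p - 2 + 1) * (p + 1) ≤ p * h := hθ.2 (formModP_smul h5
    (formModP_sub h5 (formModP_pad h5 hh.1 hle (hh0.trans hph.symm)) hpow.1) _)
  have hψ : IsFormModP p ((p - 2 + 1) * (p + 1)) (f - f ^ p) := by
    have := formModP_smul h5 hθ.1 (-24)⁻¹
    rwa [← mul_assoc, ← map_mul, inv_mul_cancel₀ (neg24_ne h5), map_one, one_mul] at this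
  obtain ⟨M, hM⟩ : ∃ M, M = max h ((p - 2 + 1) * (p + 1)) := ⟨_, rfl⟩
  have hMmod : M ≡ 0 [MOD p - 1] := by
    rcases max_choice h ((p - 2 + 1) * (p + 1)) with e | e <;> rw [hM, e]
    · exact hh0
    · exact hN
  have h2 : p * h ≤ M := hpow.2 (show IsFormModP p M (f ^ p) by
    have e : f ^ p = f - (f - f ^ p) := by ring
    rw [e]
    exact formModP_sub h5 (formModP_pad h5 hh.1 (hM ▸ le_max_left _ _) (hh0.trans hMmod.symm))
      (formModP_pad h5 hψ (hM ▸ le_max_right _ _) (hN.trans hMmod.symm)))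
  have hpos : 0 < (p - 2 + 1) * (p + 1) := Nat.mul_pos (by omega) (by omega)
  have h3 : 2 * h ≤ p * h := Nat.mul_le_mul_right _ (by omega)
  have heq : p * h = (p - 2 + 1) * (p + 1) := by
    rcases max_choice h ((p - 2 + 1) * (p + 1)) with e | e <;> rw [hM, e] at h2 <;> omega
  have hdvd : p ∣ 1 := by
    have e : p * h + 1 = p * p := by
      rw [heq, show p - 2 + 1 = p - 1 by omega]
      obtain ⟨q, rfl⟩ : ∃ q, p = q + 1 := ⟨p - 1, by omega⟩
      rw [Nat.add_sub_cancel]
      ring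
    exact (Nat.dvd_add_right (dvd_mul_right p h)).1 (e ▸ dvd_mul_right p p)
  exact (Fact.out : p.Prime).ne_one (Nat.dvd_one.1 hdvd)

/-- For `p = 2, 3` forms are polynomials in `Δ` modulo `p`. -/
theorem exists_poly_delta (hp : p = 2 ∨ p = 3) {n : ℕ} (hev : Even n) {f : PowerSeries (ZMod p)}
    (h : IsFormModP p n f) :
    ∃ P : Polynomial (ZMod p),
      Polynomial.aeval (deltaInt.map (Int.castRingHom (ZMod p))) P = f := by
  obtain ⟨G, T, hG, hT⟩ := h
  obtain ⟨a, b, m, hab⟩ : ∃ a b m, n + (4 * a + 6 * b) = 12 * m := by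
    obtain ⟨k, rfl⟩ := hev
    rcases Nat.even_or_odd k with ⟨j, rfl⟩ | ⟨j, rfl⟩
    · exact ⟨2 * j, 0, j, by ring⟩
    · exact ⟨2 * j + 4, 1, j + 2, by ring⟩
  obtain ⟨R, hR⟩ : ∃ R : PowerSeries ℤ, R = T * (eFourInt ^ a * eSixInt ^ b) := ⟨_, rfl⟩
  obtain ⟨g, hg⟩ : ∃ g : UpperHalfPlane → ℂ,
      g = ⇑G * (⇑ModularForm.E₄ ^ a * ⇑ModularForm.E₆ ^ b) := ⟨_, rfl⟩
  have hgQ : FA.Eis.HasQ 1 g (R.map (Int.castRingHom ℂ)) := by
    rw [hg, hR, map_mul, map_mul, map_pow, map_pow]
    exact (hG ▸ hasQ_form G).mul one_pos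
      ((hasQ_eFour.pow one_pos a).mul one_pos (hasQ_eSix.pow one_pos b))
  have hinv : ∀ γ : SL(2, ℤ), g ∣[((12 * m : ℕ) : ℤ)] γ = g := fun γ => by
    refine (FA.ModField.slash_eq_iff_smul γ).2 fun z => ?_
    simp only [hg, Pi.mul_apply, Pi.pow_apply]
    have hG' : G (γ • z) = UpperHalfPlane.denom γ z ^ (n : ℤ) * G z :=
      (FA.ModField.slash_eq_iff_smul γ).1 (G.slash_action_eq' _ ⟨γ, rfl⟩) z
    rw [hG',
      FA.ModField.E4_smul, FA.LevelOneRing.E6_smul, mul_pow, mul_pow, ← hab]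
    push_cast
    rw [zpow_add₀ (UpperHalfPlane.denom_ne_zero _ _),
      zpow_add₀ (UpperHalfPlane.denom_ne_zero _ _), zpow_mul, zpow_mul, zpow_natCast,
      zpow_natCast, zpow_natCast]
    simp only [zpow_ofNat]
    ring
  obtain ⟨c, -, hc⟩ := exists_delta_expansion (Int.castRingHom ℂ).injective_int m g R hinv hgQ
  have h240 : ((240 : ℕ) : ZMod p) = 0 := (ZMod.natCast_eq_zero_iff _ p).2 (by
    rcases hp with rfl | rfl <;> norm_num)
  have h504 : ((504 : ℕ) : ZMod p) = 0 := (ZMod.natCast_eq_zero_iff _ p).2 (by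
    rcases hp with rfl | rfl <;> norm_num)
  simp only [Nat.cast_ofNat] at h240 h504
  have h4 : eFourInt.map (Int.castRingHom (ZMod p)) = 1 := by
    refine PowerSeries.ext fun i => ?_
    rw [PowerSeries.coeff_map, eFourInt, PowerSeries.coeff_mk, PowerSeries.coeff_one]
    split_ifs <;> simp [h240]
  have h6 : eSixInt.map (Int.castRingHom (ZMod p)) = 1 := by
    refine PowerSeries.ext fun i => ?_
    rw [PowerSeries.coeff_map, eSixInt, PowerSeries.coeff_mk, PowerSeries.coeff_one]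
    split_ifs <;> simp [h504]
  refine ⟨∑ i ∈ Finset.range (m + 1), Polynomial.C ((c i : ℤ) : ZMod p) * Polynomial.X ^ i, ?_⟩
  have hTR : R.map (Int.castRingHom (ZMod p)) = f := by
    rw [hR, map_mul, map_mul, map_pow, map_pow, h4, h6, one_pow, one_pow, one_mul, mul_one, hT]
  rw [← hTR, hc, map_sum, map_sum]
  refine Finset.sum_congr rfl fun i _ => ?_
  simp [basisInt, h4]

/-- **No form is congruent to `φ` modulo `2` or `3`.** -/
theorem sigmaSer_not_form_small (hp : p = 2 ∨ p = 3) {n : ℕ} (hev : Even n) :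
    ¬IsFormModP p n (sigmaSer p 1) := by
  intro h
  obtain ⟨P, hP⟩ := exists_poly_delta hp hev h
  obtain ⟨d, hd⟩ : ∃ d, d = deltaInt.map (Int.castRingHom (ZMod p)) := ⟨_, rfl⟩
  rw [← hd] at hP
  have h1 : PowerSeries.coeff 1 d = 1 := by
    rw [hd, PowerSeries.coeff_map, coeff_deltaInt_one, map_one]
  have h0 : PowerSeries.constantCoeff d = 0 := by
    rw [hd, ← PowerSeries.coeff_zero_eq_constantCoeff_apply, PowerSeries.coeff_map, deltaInt]
    simp
  have hinj : ∀ Q : Polynomial (ZMod p), Polynomial.aeval d Q = 0 → Q = 0 := by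
    intro Q hQ
    by_contra hQ0
    obtain ⟨e, he⟩ := PowerSeries.X_dvd_iff.2 h0
    have he0 : PowerSeries.constantCoeff e = 1 := by
      rw [← PowerSeries.coeff_zero_eq_constantCoeff_apply, ← PowerSeries.coeff_succ_X_mul, ← he,
        zero_add, h1]
    obtain ⟨R, hR, hR0⟩ := Q.exists_eq_pow_rootMultiplicity_mul_and_not_dvd hQ0 0
    rw [map_zero, sub_zero] at hR hR0
    rw [hR, map_mul, map_pow, Polynomial.aeval_X] at hQ
    have hd0 : d ≠ 0 := fun h => by rw [h, map_zero] at h1; exact zero_ne_one h1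
    have hRd := (mul_eq_zero.1 hQ).resolve_left (pow_ne_zero _ hd0)
    refine hR0 (Polynomial.X_dvd_iff.2 ?_)
    have h' := congrArg PowerSeries.constantCoeff hRd
    rw [map_zero, Polynomial.aeval_def, Polynomial.hom_eval₂, h0,
      Polynomial.eval₂_at_zero] at h'
    simpa using h'
  have hkey : P - P ^ p = Polynomial.X := by
    refine sub_eq_zero.1 (hinj _ ?_)
    rw [map_sub, map_sub, map_pow, hP, Polynomial.aeval_X, sigmaSer_sub_pow_eq_delta hp, hd,
      sub_self]
  have h2 := (Fact.out : p.Prime).two_le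
  rcases Nat.eq_zero_or_pos P.natDegree with h0' | hpos
  · obtain ⟨c, rfl⟩ := Polynomial.natDegree_eq_zero.1 h0'
    have h' := congrArg (fun Q => Polynomial.coeff Q 1) hkey
    simp [← map_pow] at h'
  · have hlt : P.natDegree < (P ^ p).natDegree := by
      rw [Polynomial.natDegree_pow]
      exact lt_mul_of_one_lt_left hpos (by omega)
    have h' := congrArg Polynomial.natDegree hkey
    rw [Polynomial.natDegree_sub_eq_right_of_natDegree_lt hlt, Polynomial.natDegree_pow,
      Polynomial.natDegree_X] at h'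
    have := Nat.le_mul_of_pos_right p hpos
    omega

end FA.SerreDenominators

end
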