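import Fermat.Agent.Tau.ModTwentyFour
import Mathlib.RingTheory.PowerSeries.Expand
import Mathlib.FieldTheory.Finite.Basic

/-!
# Serre's series modulo a prime

For `k + 1` divisible by `p - 1` let `φ = ∑ σ_k (n) qⁿ` modulo `p`. Then `φ - φ ^ p` is the series
of `n ^ (p - 2) σ (n)` over `n` prime to `p`. Also `(b + p y) ^ N` to the first order in `N`.
-/

set_option autoImplicit false

noncomputable section

open PowerSeries
open scoped ArithmeticFunction.sigma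

namespace FA.SerreDenominators

/-- `∑ σ_k (n) qⁿ` modulo `p`. -/
def sigmaSer (p k : ℕ) : PowerSeries (ZMod p) := mk fun n => ((σ k n : ℕ) : ZMod p)

variable {p : ℕ} [Fact p.Prime]

/-- `φ ^ p` is `φ (qᵖ)`. -/
theorem pow_char_eq_expand (f : PowerSeries (ZMod p)) :
    f ^ p = PowerSeries.expand p (Fact.out : p.Prime).ne_zero f := by
  rw [PowerSeries.expand, ← MvPowerSeries.map_frobenius_expand p (Fact.out : p.Prime).ne_zero,
    ZMod.frobenius_zmod]
  exact MvPowerSeries.ext fun n => rfl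

theorem sigma_mul_prime {k m : ℕ} (hk : k ≠ 0) :
    ((σ k (p * m) : ℕ) : ZMod p) = ((σ k m : ℕ) : ZMod p) := by
  rcases Nat.eq_zero_or_pos m with rfl | hm
  · rw [mul_zero]
  rw [ArithmeticFunction.sigma_apply, ArithmeticFunction.sigma_apply, Nat.cast_sum, Nat.cast_sum]
  refine (Finset.sum_subset (fun d hd => ?_) fun d hd hd' => ?_).symm
  · obtain ⟨hdm, -⟩ := Nat.mem_divisors.1 hd
    exact Nat.mem_divisors.2 ⟨hdm.mul_left p, mul_ne_zero (Fact.out : p.Prime).ne_zero hm.ne'⟩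
  · have hpd : p ∣ d := by
      by_contra h
      exact hd' (Nat.mem_divisors.2 ⟨(((Fact.out : p.Prime).coprime_iff_not_dvd.2 h).symm
        ).dvd_of_dvd_mul_left (Nat.mem_divisors.1 hd).1, hm.ne'⟩)
    rw [Nat.cast_pow, (ZMod.natCast_eq_zero_iff d p).2 hpd, zero_pow hk]

theorem sigma_eq_of_not_dvd {k n : ℕ} (hk : p - 1 ∣ k + 1) (hn : ¬p ∣ n) :
    ((σ k n : ℕ) : ZMod p) = (n : ZMod p) ^ (p - 2) * ((σ 1 n : ℕ) : ZMod p) := by
  have h2 := (Fact.out : p.Prime).two_le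
  rw [ArithmeticFunction.sigma_apply, ArithmeticFunction.sigma_one_apply, Nat.cast_sum,
    Nat.cast_sum, Finset.mul_sum]
  conv_lhs => rw [← Nat.sum_div_divisors n (fun d => ((d ^ k : ℕ) : ZMod p))]
  refine Finset.sum_congr rfl fun d hd => ?_
  have hdn := Nat.mul_div_cancel' (Nat.dvd_of_mem_divisors hd)
  obtain ⟨x, hx⟩ : ∃ x : ZMod p, x = ((n / d : ℕ) : ZMod p) := ⟨_, rfl⟩
  have hn' : (n : ZMod p) ≠ 0 := fun h => hn ((ZMod.natCast_eq_zero_iff n p).1 h)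
  have hprod : (d : ZMod p) * x = n := by rw [hx, ← Nat.cast_mul, hdn]
  have hx0 : x ≠ 0 := fun h => hn' (by rw [← hprod, h, mul_zero])
  rw [Nat.cast_pow, ← hx]
  refine mul_right_cancel₀ hx0 ?_
  obtain ⟨c, hc⟩ := hk
  rw [← pow_succ, mul_assoc, hprod, ← pow_succ, hc, pow_mul, ZMod.pow_card_sub_one_eq_one hx0,
    one_pow, show p - 2 + 1 = p - 1 by omega, ZMod.pow_card_sub_one_eq_one hn']

/-- **The identity.** -/
theorem sigmaSer_sub_pow {k : ℕ} (hk : k ≠ 0) (hkp : p - 1 ∣ k + 1) :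
    sigmaSer p k - sigmaSer p k ^ p = mk fun n =>
      if p ∣ n then 0 else (n : ZMod p) ^ (p - 2) * ((σ 1 n : ℕ) : ZMod p) := by
  refine PowerSeries.ext fun n => ?_
  rw [map_sub, pow_char_eq_expand, coeff_expand, sigmaSer, coeff_mk, coeff_mk]
  split_ifs with h
  · obtain ⟨m, rfl⟩ := h
    rw [coeff_mk, Nat.mul_div_cancel_left _ (Fact.out : p.Prime).pos, sigma_mul_prime hk, sub_self,
      if_pos (dvd_mul_right p m)]
  · rw [sub_zero, sigma_eq_of_not_dvd hkp h, coeff_mk, if_neg h]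

/-- For `p = 2, 3` that series is `Δ`. -/
theorem sigmaSer_sub_pow_eq_delta (hp : p = 2 ∨ p = 3) :
    sigmaSer p 1 - sigmaSer p 1 ^ p = FA.Tau.deltaInt.map (Int.castRingHom (ZMod p)) := by
  rw [sigmaSer_sub_pow one_ne_zero (by rcases hp with rfl | rfl <;> norm_num)]
  refine PowerSeries.ext fun n => ?_
  rw [coeff_mk, coeff_map, eq_intCast]
  rcases hp with rfl | rfl
  · rw [FA.Tau.coeff_deltaInt_of_dvd_twentyFour (by norm_num) n]
    split_ifs with h
    · rw [(ZMod.natCast_eq_zero_iff n 2).2 h, zero_pow four_ne_zero, zero_mul]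
    · rw [(ZMod.natCast_eq_one_iff_odd).2 (Nat.odd_iff.2 (by omega)), one_pow, one_pow]
  · rw [FA.Tau.coeff_deltaInt_three]
    split_ifs with h
    · rw [(ZMod.natCast_eq_zero_iff n 3).2 h, zero_mul]
    · rw [pow_one]

/-- **The first order term of a power**, `p` odd. -/
theorem exists_pow_expansion {R : Type*} [CommRing R] {q : ℕ} (hq : Odd q) (b y : R) (s t : ℕ) :
    ∃ z : R, (b + (q : R) * y) ^ (q ^ s * t) = b ^ (q ^ s * t) +
      (t : R) * (q : R) ^ (s + 1) * (b ^ (q ^ s * t - 1) * y) + (q : R) ^ (s + 2) * z := by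
  have key : ∃ z : R, (b + (q : R) * y) ^ q ^ s =
      b ^ q ^ s + (q : R) ^ (s + 1) * (b ^ (q ^ s - 1) * y + (q : R) * z) := by
    induction s with
    | zero => exact ⟨0, by rw [pow_zero, pow_one, pow_one, Nat.sub_self, pow_zero, zero_add,
        pow_one, one_mul, mul_zero, add_zero]⟩
    | succ s ih =>
      obtain ⟨z, hz⟩ := ih
      obtain ⟨c, hc⟩ : ∃ c, c = b ^ q ^ s := ⟨_, rfl⟩
      obtain ⟨u, hu⟩ : ∃ u, u = b ^ (q ^ s - 1) * y + (q : R) * z := ⟨_, rfl⟩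
      rw [← hc, ← hu] at hz
      obtain ⟨W, hW⟩ := odd_sq_dvd_geom_sum₂_sub (a := c) (b := (q : R) ^ s * u) hq
      have hg := geom_sum₂_mul (c + (q : R) * ((q : R) ^ s * u)) c q
      have hexp : q ^ (s + 1) - 1 = (q - 1) * q ^ s + (q ^ s - 1) := by
        have h1 : 1 ≤ q ^ s := Nat.one_le_pow _ _ hq.pos
        obtain ⟨v, rfl⟩ : ∃ v, q = v + 1 := ⟨q - 1, by have := hq.pos; omega⟩
        rw [pow_succ, Nat.add_sub_cancel, Nat.mul_succ, mul_comm v]
        omega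
      refine ⟨c ^ (q - 1) * z + u * W, ?_⟩
      rw [pow_succ q, pow_mul, hz, pow_mul b, ← hc, ← pow_succ q, hexp, pow_add b, mul_comm (q - 1),
        pow_mul b, ← hc]
      rw [show (q : R) ^ (s + 1) * u = (q : R) * ((q : R) ^ s * u) by rw [pow_succ]; ring]
      linear_combination -hg + (q : R) * ((q : R) ^ s * u) * hW +
        (q : R) * (q : R) ^ (s + 1) * c ^ (q - 1) * hu
  obtain ⟨z, hz⟩ := key
  obtain ⟨c, hc⟩ : ∃ c, c = b ^ q ^ s := ⟨_, rfl⟩
  rw [← hc] at hz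
  obtain ⟨u, hu⟩ : ∃ u, u = b ^ (q ^ s - 1) * y + (q : R) * z := ⟨_, rfl⟩
  rw [← hu] at hz
  obtain ⟨W, hW⟩ := sq_dvd_add_pow_sub_sub ((q : R) ^ (s + 1) * u) c t
  rcases Nat.eq_zero_or_pos t with rfl | ht
  · exact ⟨0, by simp⟩
  have hexp : q ^ s * t - 1 = q ^ s * (t - 1) + (q ^ s - 1) := by
    have h1 : 1 ≤ q ^ s := Nat.one_le_pow _ _ hq.pos
    obtain ⟨v, rfl⟩ : ∃ v, t = v + 1 := ⟨t - 1, by omega⟩
    rw [Nat.mul_succ, Nat.add_sub_cancel]
    omega
  refine ⟨(t : R) * c ^ (t - 1) * z + (q : R) ^ s * u ^ 2 * W, ?_⟩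
  rw [pow_mul (b + _), hz, pow_mul b, ← hc, hexp, pow_add b, pow_mul b, ← hc]
  linear_combination hW + (t : R) * (q : R) ^ (s + 1) * c ^ (t - 1) * hu

end FA.SerreDenominators

end
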